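import Fermat.Agent.Raising.AtResidualPrime.LastRings

/-!
# The base of a family of joint rings

A point of a level without auxiliary primes is a point of any joint ring whose action has the same
augmentation (`exists_descend`); so the joint rings with auxiliary primes map onto those without,
compatibly with the adapted bases (`exists_adapted_lift`, `exists_adapted_push`) and the
coordinates at the raised primes (`coord_compat`).  `extAct` extends an action on the
levels `0, …, m` to every index when the higher ranks are the one of the level `m`.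
-/

noncomputable section

namespace Fermat.Agent.Raising.Build

open IsLocalRing Module Matrix Fermat.Agent.LevelLowering Fermat.Agent.Gal Fermat.Agent.TW

local notation "Qbar" => AlgebraicClosure ℚ
local notation "GQ" => (AlgebraicClosure ℚ ≃ₐ[ℚ] AlgebraicClosure ℚ)

variable {O : Type} [CommRing O] [IsDomain O] [IsDiscreteValuationRing O]
  [Finite (ResidueField O)]

section Aug

variable [IsAdicComplete (maximalIdeal O) O] (O) (p : ℕ) {D : ℕ} (lv : Fin D → ℕ)

/-- The augmentation of the ring of diamonds. -/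
def augDia : DiaCoords O p lv →ₐ[O] O :=
  { Ideal.Quotient.lift (diamondIdeal (𝒪 := O) p lv) MvPowerSeries.constantCoeff
      (diamondIdeal_aug p lv) with
    commutes' := fun c => by
      show Ideal.Quotient.lift _ _ _ (Ideal.Quotient.mk _
        (algebraMap O (MvPowerSeries (Fin D) O) c)) = c
      rw [Ideal.Quotient.lift_mk, MvPowerSeries.algebraMap_apply]
      simp }

omit [IsDomain O] [IsDiscreteValuationRing O] [Finite (ResidueField O)]
    [IsAdicComplete (maximalIdeal O) O] in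
theorem augDia_mk (s : MvPowerSeries (Fin D) O) :
    augDia O p lv (Ideal.Quotient.mk _ s) = MvPowerSeries.constantCoeff s := rfl

omit [IsDomain O] [IsDiscreteValuationRing O] [Finite (ResidueField O)]
    [IsAdicComplete (maximalIdeal O) O] in
/-- Without auxiliary primes the augmentation is injective. -/
theorem augDia_injective (lv₀ : Fin 0 → ℕ) : Function.Injective (augDia O p lv₀) :=
  (injective_iff_map_eq_zero _).2 fun x hx => by
    obtain ⟨s, rfl⟩ := Ideal.Quotient.mk_surjective x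
    rw [augDia_mk] at hx
    have hs : s = 0 := MvPowerSeries.ext fun k => by
      rw [show k = 0 from Subsingleton.elim _ _, MvPowerSeries.coeff_zero_eq_constantCoeff_apply,
        hx]
      simp
    rw [hs, map_zero]

end Aug

section Descend

variable {p : ℕ} {ρbar : ResidualGaloisRep (ResidueField O)} {S : Finset ℕ} {ι : Type}
  {F : ι → Type} [∀ a, CommRing (F a)] [∀ a, IsLocalRing (F a)] [∀ a, Algebra O (F a)]
  {c : ∀ a, ℕ → F a} {ρpt : ∀ a, GaloisRepAdic (F a)}

omit [Finite (ResidueField O)] in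
/-- **A point of the base level is a point of a joint ring with the same augmented action.** -/
theorem exists_descend (P : JointRing p ρbar S F c ρpt) {S₀ : Finset ℕ} {c₀ : ℕ → O} {B₀ : Type}
    [CommRing B₀] [Algebra O B₀] {d : ℕ} (L₀ : OpLevel O S₀ c₀ B₀ d) (f₀ : B₀ →ₐ[O] O)
    (hf₀ : Function.Injective f₀) (A : P.T →ₐ[O] Matrix (Fin d) (Fin d) O)
    (hA : ∀ ℓ : ℕ, ℓ.Prime → ℓ ∉ S → A (P.τ ℓ) = (L₀.Φ (L₀.x ℓ)).map f₀) (a : L₀.κ) :
    ∃ χ : P.T →ₐ[O] L₀.F a, ∀ ℓ : ℕ, ℓ.Prime → ℓ ∉ S → χ (P.τ ℓ) = L₀.ev a (L₀.x ℓ) := by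
  classical
  let Φ' : L₀.A →ₐ[O] Matrix (Fin d) (Fin d) O := f₀.mapMatrix.comp L₀.Φ
  have hker : ∀ z, Φ' z = 0 → L₀.ev a z = 0 := fun z hz =>
    (L₀.ker_iff z).1 (Matrix.ext fun i j => hf₀
      ((congrFun (congrFun hz i) j).trans (map_zero f₀).symm)) a
  have hlift : ∀ t, ∃ z, Φ' z = A t := by
    intro t
    have h : (⊤ : Subalgebra O P.T) ≤ Φ'.range.comap A := by
      rw [← P.gen]
      refine Algebra.adjoin_le ?_
      rintro _ ⟨ℓ, ⟨hℓ, hℓS⟩, rfl⟩
      exact ⟨L₀.x ℓ, (hA ℓ hℓ hℓS).symm⟩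
    exact h (Algebra.mem_top (R := O) (x := t))
  choose z hz using hlift
  have hwd : ∀ t w, Φ' w = A t → L₀.ev a (z t) = L₀.ev a w := fun t w hw => sub_eq_zero.mp (by
    rw [← map_sub]
    exact hker _ (by rw [map_sub, hz, hw, sub_self]))
  refine ⟨
    { toFun := fun t => L₀.ev a (z t)
      map_one' := (hwd 1 1 (by rw [map_one, map_one])).trans (map_one _)
      map_mul' := fun u v => (hwd _ (z u * z v) (by rw [map_mul, map_mul, hz, hz])).trans
        (map_mul _ _ _)
      map_zero' := (hwd 0 0 (by rw [map_zero, map_zero])).trans (map_zero _)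
      map_add' := fun u v => (hwd _ (z u + z v) (by rw [map_add, map_add, hz, hz])).trans
        (map_add _ _ _)
      commutes' := fun r => (hwd _ (algebraMap O _ r) (by
        rw [AlgHom.commutes, AlgHom.commutes])).trans (AlgHom.commutes _ r) },
    fun ℓ hℓ hℓS => hwd _ _ (hA ℓ hℓ hℓS).symm⟩

variable {S₀ : Finset ℕ} {ι₀ : Type} {F₀ : ι₀ → Type} [∀ a, CommRing (F₀ a)]
  [∀ a, IsLocalRing (F₀ a)] [∀ a, Algebra O (F₀ a)] {c' : ∀ a, ℕ → F₀ a}
  {ρpt' : ∀ a, GaloisRepAdic (F₀ a)}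

omit [Finite (ResidueField O)] in
/-- A map respecting the points respects the Frobenius traces. -/
theorem proj_τ (P : JointRing p ρbar S F c ρpt) (P₀ : JointRing p ρbar S₀ F₀ c' ρpt')
    (hS : S₀ ⊆ S) (π : P.T →ₐ[O] P₀.T) (χ : ∀ a, P.T →ₐ[O] F₀ a)
    (hπ : ∀ a t, P₀.pt a (π t) = χ a t)
    (hχ : ∀ a, ∀ ℓ : ℕ, ℓ.Prime → ℓ ∉ S → χ a (P.τ ℓ) = c' a ℓ) {ℓ : ℕ} (hℓ : ℓ.Prime)
    (hℓS : ℓ ∉ S) : π (P.τ ℓ) = P₀.τ ℓ :=
  sub_eq_zero.mp (P₀.pt_injective _ fun a => by
    rw [map_sub, hπ, hχ a ℓ hℓ hℓS, P₀.pt_τ ℓ hℓ fun h => hℓS (hS h), sub_self])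

omit [Finite (ResidueField O)] in
/-- A map of joint rings respects the maximal ideals. -/
theorem proj_mem (P : JointRing p ρbar S F c ρpt) (P₀ : JointRing p ρbar S₀ F₀ c' ρpt')
    (π : P.T →ₐ[O] P₀.T) {x : P.T} (hx : x ∈ maximalIdeal P.T) : π x ∈ maximalIdeal P₀.T :=
  Scalar.map_mem_maximalIdeal P₀.residue_surjective π hx

variable [Fact p.Prime] {bbar : Basis (Fin 2) (ResidueField O) ρbar.V}

omit [Finite (ResidueField O)] [Fact (Nat.Prime p)] in
/-- An adapted basis lifts along a surjection of joint rings. -/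
theorem exists_adapted_lift (habs : ρbar.IsAbsolutelyIrreducible) (P : JointRing p ρbar S F c ρpt)
    (P₀ : JointRing p ρbar S₀ F₀ c' ρpt') (π : P.T →ₐ[O] P₀.T) (hπ : Function.Surjective π)
    (htr : ∀ g, π (LinearMap.trace P.T P.ρ.V (P.ρ.ρ g)) = LinearMap.trace P₀.T P₀.ρ.V (P₀.ρ.ρ g))
    {b₀ : Basis (Fin 2) P₀.T P₀.ρ.V} (h₀ : Adapted bbar P₀.residue_surjective P₀.ρ b₀) :
    ∃ b : Basis (Fin 2) P.T P.ρ.V, Adapted bbar P.residue_surjective P.ρ b ∧
      ∀ g, matrixRep b₀ P₀.ρ.ρ g = (matrixRep b P.ρ.ρ g).map π := by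
  obtain ⟨h, -⟩ := JointRing.exists_compatibleBasis P.ρ P₀.ρ (P₀.residual_absIrr habs)
    (π : P.T →+* P₀.T) hπ htr
  obtain ⟨b, hb⟩ := h b₀
  exact ⟨b, (JointRing.adapted_iff_of_compatible P.residue_surjective P₀.residue_surjective π
    fun g => (hb g).symm).2 h₀, fun g => (hb g).symm⟩

omit [Finite (ResidueField O)] [Fact (Nat.Prime p)] in
/-- An adapted basis goes along a surjection of joint rings. -/
theorem exists_adapted_push (habs : ρbar.IsAbsolutelyIrreducible) (P : JointRing p ρbar S F c ρpt)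
    (P₀ : JointRing p ρbar S₀ F₀ c' ρpt') (π : P.T →ₐ[O] P₀.T) (hπ : Function.Surjective π)
    (htr : ∀ g, π (LinearMap.trace P.T P.ρ.V (P.ρ.ρ g)) = LinearMap.trace P₀.T P₀.ρ.V (P₀.ρ.ρ g))
    {b : Basis (Fin 2) P.T P.ρ.V} (hb : Adapted bbar P.residue_surjective P.ρ b) :
    ∃ b₀ : Basis (Fin 2) P₀.T P₀.ρ.V, Adapted bbar P₀.residue_surjective P₀.ρ b₀ ∧
      ∀ g, matrixRep b₀ P₀.ρ.ρ g = (matrixRep b P.ρ.ρ g).map π := by
  obtain ⟨-, h⟩ := JointRing.exists_compatibleBasis P.ρ P₀.ρ (P₀.residual_absIrr habs)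
    (π : P.T →+* P₀.T) hπ htr
  obtain ⟨b₀, hb₀⟩ := h b
  exact ⟨b₀, (JointRing.adapted_iff_of_compatible P.residue_surjective P₀.residue_surjective π
    hb₀).1 hb, hb₀⟩

omit [Finite (ResidueField O)] in
/-- **The coordinates at a raised prime in compatible bases are compatible.** -/
theorem coord_compat [IsAdicComplete (maximalIdeal O) O] {P : RaisedPrime p ρbar bbar}
    (K : LocalKind P) {T T₀ : Type} [CommRing T]
    [IsLocalRing T] [IsNoetherianRing T] [Algebra O T] [IsLocalHom (algebraMap O T)]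
    [IsAdicComplete (maximalIdeal T) T] [CommRing T₀] [IsLocalRing T₀] [Algebra O T₀]
    [IsAdicComplete (maximalIdeal T₀) T₀]
    {hres : Function.Surjective (residue T ∘ algebraMap O T)} {ρ : GaloisRepAdic T}
    {ρ₀ : GaloisRepAdic T₀} {b : Basis (Fin 2) T ρ.V} {b₀ : Basis (Fin 2) T₀ ρ₀.V}
    (hb : Adapted bbar hres ρ b) (hdet : ρ.DetIsCyclotomic p) (π : T →ₐ[O] T₀)
    (hπ : ∀ x ∈ maximalIdeal T, π x ∈ maximalIdeal T₀)
    (hcomp : ∀ g, matrixRep b₀ ρ₀.ρ g = (matrixRep b ρ.ρ g).map π) (c : Fin K.e) :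
    π (K.coord T (matrixRep b ρ.ρ P.φ) (matrixRep b ρ.ρ P.σ - 1) c) =
      K.coord T₀ (matrixRep b₀ ρ₀.ρ P.φ) (matrixRep b₀ ρ₀.ρ P.σ - 1) c := by
  have hN : matrixRep b₀ ρ₀.ρ P.σ - 1 = (matrixRep b ρ.ρ P.σ - 1).map π := by
    rw [hcomp, Matrix.map_sub _ (map_sub π), Matrix.map_one _ (map_zero π) (map_one π)]
  rw [hN, hcomp P.φ]
  exact K.coord_map T T₀ π hπ (isLift_of_adapted hb hdet P) c

end Descend

section Extend

variable {R B B' : Type} [CommRing R] [CommRing B] [CommRing B'] {m : ℕ} {d : ℕ → ℕ}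
  (hd : ∀ j, m < j → d j = d m) (act : ∀ j : Fin (m + 1), R →+* Matrix (Fin (d j)) (Fin (d j)) B)

/-- An action on the levels `0, …, m`, the same on the higher ones. -/
def extAct (j : ℕ) : R →+* Matrix (Fin (d j)) (Fin (d j)) B :=
  if h : j ≤ m then act ⟨j, Nat.lt_succ_of_le h⟩
  else (Matrix.reindexRingEquiv B (finCongr (hd j (not_le.1 h)).symm)).toRingHom.comp
    (act (Fin.last m))

theorem extAct_of_le {j : ℕ} (h : j ≤ m) :
    extAct hd act j = act ⟨j, Nat.lt_succ_of_le h⟩ := dif_pos h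

theorem extAct_map (act' : ∀ j : Fin (m + 1), R →+* Matrix (Fin (d j)) (Fin (d j)) B')
    {R' : Type} [CommRing R'] (π : R' →+* R)
    (act₁ : ∀ j : Fin (m + 1), R' →+* Matrix (Fin (d j)) (Fin (d j)) B) (g : B → B')
    (h : ∀ j x, (act₁ j x).map g = act' j (π x)) (j : ℕ) (x : R') :
    (extAct hd act₁ j x).map g = extAct hd act' j (π x) := by
  unfold extAct
  split
  · exact h _ _
  · exact Matrix.ext fun a b => congrFun (congrFun (h (Fin.last m) x) _) _

theorem extAct_scalar (c : R) (s : B)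
    (h : ∀ j, act j c = Matrix.scalar (Fin (d j)) s) (j : ℕ) :
    extAct hd act j c = Matrix.scalar (Fin (d j)) s := by
  unfold extAct
  split
  · exact h _
  · rw [RingHom.comp_apply, h]
    ext a b
    simp [Matrix.diagonal_apply]

end Extend

end Fermat.Agent.Raising.Build

end
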