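import Fermat.Agent.Raising.Build.Act
import Fermat.Agent.Raising.Step

/-!
# Degeneracy maps under the diamond action

Two degeneracy maps between members of a family give, in the diamond coordinates, maps of two
copies intertwining the actions, split after composition with one side, with composition the matrix
of ring elements read off at the points, and with the saturation of the members
(`DiamondAction.exists_degeneracy`).
-/

noncomputable section

namespace Fermat.Agent.Raising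

open IsLocalRing Matrix Module Fermat.Agent.LevelLowering Fermat.Agent.Gal

local notation "Qbar" => AlgebraicClosure ℚ
local notation "GQ" => (AlgebraicClosure ℚ ≃ₐ[ℚ] AlgebraicClosure ℚ)

variable {O : Type} [CommRing O] [IsDomain O] [IsDiscreteValuationRing O]
  [IsAdicComplete (maximalIdeal O) O] [Finite (ResidueField O)] {p : ℕ} [Fact p.Prime]
  {ρbar : ResidualGaloisRep (ResidueField O)} {S : Finset ℕ}
  {ι : Type} {F : ι → Type} [∀ a, CommRing (F a)] [∀ a, IsLocalRing (F a)]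
  [∀ a, Algebra O (F a)]
  {c : ∀ a, ℕ → F a} {ρpt : ∀ a, GaloisRepAdic (F a)}
  {c₀ : ℕ → O} {D : ℕ} {lv : Fin D → ℕ}
  {R : JointRing p ρbar S F c ρpt} {M : Type} {d : M → ℕ}
  {L : ∀ j : M, OpLevel O S c₀ (DiaCoords O p lv) (d j)}
  {Q : LevelPts R L} {b : Basis (Fin 2) R.T R.ρ.V} {qv : Fin D → ℕ}

local notation "augD" =>
  Ideal.Quotient.lift (diamondIdeal (𝒪 := O) p lv) MvPowerSeries.constantCoeff
    (diamondIdeal_aug p lv)

namespace DiamondAction

variable (W : DiamondAction Q b qv)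

omit [IsAdicComplete (maximalIdeal O) O] [Finite (ResidueField O)] [Fact (Nat.Prime p)] in
include W in
/-- **The degeneracy maps between two members.** In the diamond coordinates they intertwine the
actions and stay split; `g` is the matrix of the compositions in the ring, known at the points. -/
theorem exists_degeneracy (j k : M)
    (upA upB : Matrix (Fin (d k)) (Fin (d j)) (DiaCoords O p lv))
    (downA downB : Matrix (Fin (d j)) (Fin (d k)) (DiaCoords O p lv))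
    (hup : ∀ ℓ : ℕ, ℓ.Prime → ℓ ∉ S →
      upA * (L j).Φ ((L j).x ℓ) = (L k).Φ ((L k).x ℓ) * upA ∧
        upB * (L j).Φ ((L j).x ℓ) = (L k).Φ ((L k).x ℓ) * upB)
    (hdown : ∀ ℓ : ℕ, ℓ.Prime → ℓ ∉ S →
      downA * (L k).Φ ((L k).x ℓ) = (L j).Φ ((L j).x ℓ) * downA ∧
        downB * (L k).Φ ((L k).x ℓ) = (L j).Φ ((L j).x ℓ) * downB)
    (hupinv : ∃ X : Matrix (Fin (d j) ⊕ Fin (d j)) (Fin (d k)) (DiaCoords O p lv),
      X * Matrix.fromCols upA upB = 1)
    (hdowninv : ∃ X : Matrix (Fin (d k)) (Fin (d j) ⊕ Fin (d j)) (DiaCoords O p lv),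
      Matrix.fromRows downA downB * X = 1)
    (g : Fin 2 → Fin 2 → R.T)
    (hAA : ∃ z, downA * upA = (L j).Φ z ∧ ∀ a, (L j).ev a z = Q.pt j a (g 0 0))
    (hAB : ∃ z, downA * upB = (L j).Φ z ∧ ∀ a, (L j).ev a z = Q.pt j a (g 0 1))
    (hBA : ∃ z, downB * upA = (L j).Φ z ∧ ∀ a, (L j).ev a z = Q.pt j a (g 1 0))
    (hBB : ∃ z, downB * upB = (L j).Φ z ∧ ∀ a, (L j).ev a z = Q.pt j a (g 1 1)) :
    ∃ (up : Matrix (Fin (d k)) (Fin (d j) ⊕ Fin (d j)) (DiaCoords O p lv))
      (down : Matrix (Fin (d j) ⊕ Fin (d j)) (Fin (d k)) (DiaCoords O p lv)),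
      (∀ t, up * twoCopies (W.act j t) = W.act k t * up) ∧
      (∀ t, down * W.act k t = twoCopies (W.act j t) * down) ∧
      (∃ X : Matrix (Fin (d j) ⊕ Fin (d j)) (Fin (d k)) (DiaCoords O p lv), X * up = 1) ∧
      (∃ X : Matrix (Fin (d k)) (Fin (d j) ⊕ Fin (d j)) (DiaCoords O p lv), down * X = 1) ∧
      down * up = Matrix.fromBlocks (W.act j (g 0 0)) (W.act j (g 0 1)) (W.act j (g 1 0))
        (W.act j (g 1 1)) ∧
      ∀ New : (L k).κ → Prop,
        (∀ z : (L k).A, (∀ a, New a → (L k).ev a z = 0) →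
          ∃ XA XB : Matrix (Fin (d j)) (Fin (d k)) (DiaCoords O p lv),
            (L k).Φ z = upA * XA + upB * XB) →
        ∀ t, (∀ a, New a → Q.pt k a t = 0) → ∃ X, W.act k t = up * X := by
  classical
  refine ⟨Matrix.fromCols (W.tau j k upA) (W.tau j k upB),
    Matrix.fromRows (W.tau k j downA) (W.tau k j downB), fun t => ?_, fun t => ?_, ?_, ?_, ?_,
    fun New hsat t ht => ?_⟩
  · rw [Matrix.fromCols_mul_fromBlocks, Matrix.mul_fromCols, Matrix.mul_zero, Matrix.mul_zero,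
      add_zero, zero_add, W.tau_comm j k upA (fun ℓ h h' => (hup ℓ h h').1),
      W.tau_comm j k upB fun ℓ h h' => (hup ℓ h h').2]
  · rw [Matrix.fromBlocks_mul_fromRows, Matrix.fromRows_mul, Matrix.zero_mul, Matrix.zero_mul,
      add_zero, zero_add, W.tau_comm k j downA (fun ℓ h h' => (hdown ℓ h h').1),
      W.tau_comm k j downB fun ℓ h h' => (hdown ℓ h h').2]
  · refine exists_leftInverse_of_map augD surjective_augS
      (fun x => isUnit_of_isUnit_augS (lv := lv) x) _ ?_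
    obtain ⟨X, hX⟩ := hupinv
    refine ⟨X.map augD, ?_⟩
    rw [Matrix.fromCols_map, W.tau_aug, W.tau_aug, ← Matrix.fromCols_map, ← Matrix.map_mul, hX,
      Matrix.map_one _ (map_zero _) (map_one _)]
  · refine exists_rightInverse_of_map augD surjective_augS
      (fun x => isUnit_of_isUnit_augS (lv := lv) x) _ ?_
    obtain ⟨X, hX⟩ := hdowninv
    refine ⟨X.map augD, ?_⟩
    rw [Matrix.fromRows_map, W.tau_aug, W.tau_aug, ← Matrix.fromRows_map, ← Matrix.map_mul, hX,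
      Matrix.map_one _ (map_zero _) (map_one _)]
  · obtain ⟨zAA, eAA, hzAA⟩ := hAA
    obtain ⟨zAB, eAB, hzAB⟩ := hAB
    obtain ⟨zBA, eBA, hzBA⟩ := hBA
    obtain ⟨zBB, eBB, hzBB⟩ := hBB
    rw [Matrix.fromRows_mul_fromCols, ← W.tau_mul j k j upA downA (fun ℓ h h' => (hdown ℓ h h').1),
      ← W.tau_mul j k j upB downA (fun ℓ h h' => (hdown ℓ h h').1),
      ← W.tau_mul j k j upA downB (fun ℓ h h' => (hdown ℓ h h').2),
      ← W.tau_mul j k j upB downB (fun ℓ h h' => (hdown ℓ h h').2), eAA, eAB, eBA, eBB,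
      W.tau_op j _ _ hzAA, W.tau_op j _ _ hzAB, W.tau_op j _ _ hzBA, W.tau_op j _ _ hzBB]
  · obtain ⟨act₀, -, -, -, hlift⟩ := Q.exists_action k
    obtain ⟨z, -, hz⟩ := hlift t
    obtain ⟨XA, XB, hX⟩ := hsat z fun a ha => by rw [hz, ht a ha]
    refine ⟨Matrix.fromRows (W.tau k j XA) (W.tau k j XB), ?_⟩
    refine Eq.trans ?_ (Matrix.fromCols_mul_fromRows _ _ _ _).symm
    rw [← W.tau_op k t z hz, hX, W.tau_add,
      W.tau_mul k j k XA upA (fun ℓ h h' => (hup ℓ h h').1),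
      W.tau_mul k j k XB upB fun ℓ h h' => (hup ℓ h h').2]

omit [IsAdicComplete (maximalIdeal O) O] [Finite (ResidueField O)] [Fact (Nat.Prime p)] in
include W in
/-- **The degeneracy maps at a prime raised**, with composition `[[q + 1, tr φ], [tr φ, q + 1]]`. -/
theorem exists_degeneracy_raised (j k : M) (q : ℕ) (φ : GQ)
    (upA upB : Matrix (Fin (d k)) (Fin (d j)) (DiaCoords O p lv))
    (downA downB : Matrix (Fin (d j)) (Fin (d k)) (DiaCoords O p lv))
    (hup : ∀ ℓ : ℕ, ℓ.Prime → ℓ ∉ S →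
      upA * (L j).Φ ((L j).x ℓ) = (L k).Φ ((L k).x ℓ) * upA ∧
        upB * (L j).Φ ((L j).x ℓ) = (L k).Φ ((L k).x ℓ) * upB)
    (hdown : ∀ ℓ : ℕ, ℓ.Prime → ℓ ∉ S →
      downA * (L k).Φ ((L k).x ℓ) = (L j).Φ ((L j).x ℓ) * downA ∧
        downB * (L k).Φ ((L k).x ℓ) = (L j).Φ ((L j).x ℓ) * downB)
    (hupinv : ∃ X : Matrix (Fin (d j) ⊕ Fin (d j)) (Fin (d k)) (DiaCoords O p lv),
      X * Matrix.fromCols upA upB = 1)
    (hdowninv : ∃ X : Matrix (Fin (d k)) (Fin (d j) ⊕ Fin (d j)) (DiaCoords O p lv),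
      Matrix.fromRows downA downB * X = 1)
    (tq : (L j).A)
    (tq_ev : ∀ a, (L j).ev a tq = LinearMap.trace _ _ (((L j).ρ a).ρ φ))
    (hdu : downA * upA = (q + 1 : DiaCoords O p lv) • (1 : Matrix (Fin (d j)) (Fin (d j)) _) ∧
      downA * upB = (L j).Φ tq ∧ downB * upA = (L j).Φ tq ∧
      downB * upB = (q + 1 : DiaCoords O p lv) • (1 : Matrix (Fin (d j)) (Fin (d j)) _)) :
    ∃ (up : Matrix (Fin (d k)) (Fin (d j) ⊕ Fin (d j)) (DiaCoords O p lv))
      (down : Matrix (Fin (d j) ⊕ Fin (d j)) (Fin (d k)) (DiaCoords O p lv)),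
      (∀ t, up * twoCopies (W.act j t) = W.act k t * up) ∧
      (∀ t, down * W.act k t = twoCopies (W.act j t) * down) ∧
      (∃ X : Matrix (Fin (d j) ⊕ Fin (d j)) (Fin (d k)) (DiaCoords O p lv), X * up = 1) ∧
      (∃ X : Matrix (Fin (d k)) (Fin (d j) ⊕ Fin (d j)) (DiaCoords O p lv), down * X = 1) ∧
      down * up = Matrix.fromBlocks (W.act j ((q : R.T) + 1))
        (W.act j (LinearMap.trace R.T R.ρ.V (R.ρ.ρ φ)))
        (W.act j (LinearMap.trace R.T R.ρ.V (R.ρ.ρ φ))) (W.act j ((q : R.T) + 1)) ∧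
      ∀ New : (L k).κ → Prop,
        (∀ z : (L k).A, (∀ a, New a → (L k).ev a z = 0) →
          ∃ XA XB : Matrix (Fin (d j)) (Fin (d k)) (DiaCoords O p lv),
            (L k).Φ z = upA * XA + upB * XB) →
        ∀ t, (∀ a, New a → Q.pt k a t = 0) → ∃ X, W.act k t = up * X := by
  have hscal : (q + 1 : DiaCoords O p lv) • (1 : Matrix (Fin (d j)) (Fin (d j)) _) =
      (L j).Φ ((q : (L j).A) + 1) := by
    rw [map_add, map_natCast, map_one, add_smul, one_smul, Nat.cast_smul_eq_nsmul, nsmul_one]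
  have h1 : ∀ a, (L j).ev a ((q : (L j).A) + 1) = Q.pt j a ((q : R.T) + 1) := fun a => by
    simp
  have ht : ∀ a, (L j).ev a tq = Q.pt j a (LinearMap.trace R.T R.ρ.V (R.ρ.ρ φ)) := fun a => by
    rw [tq_ev, Q.trace_eq b]
  obtain ⟨e1, e2, e3, e4⟩ := hdu
  exact W.exists_degeneracy j k upA upB downA downB hup hdown hupinv hdowninv
    !![(q : R.T) + 1, LinearMap.trace R.T R.ρ.V (R.ρ.ρ φ);
      LinearMap.trace R.T R.ρ.V (R.ρ.ρ φ), (q : R.T) + 1]
    ⟨_, e1.trans hscal, h1⟩ ⟨_, e2, ht⟩ ⟨_, e3, ht⟩ ⟨_, e4.trans hscal, h1⟩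

end DiamondAction

end Fermat.Agent.Raising
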