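import Fermat.Agent.Raising.Build.LevelPts

/-!
# The diamond action on a family of levels

At auxiliary primes with distinct residual eigenvalues the coordinates of every member of a family
of levels can be changed so that the joint ring acts with the Galois diamonds as the variables
(`LevelPts.exists_diamondAction`); intertwiners of the operators go over to intertwiners of the
actions.
-/

noncomputable section

namespace Fermat.Agent.Raising

open IsLocalRing Polynomial Module Matrix Fermat.Agent.LevelLowering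
  Fermat.Agent.LevelLowering.Scalar Fermat.Agent.Gal Fermat.Agent.TW Fermat.Agent.PT

local notation "Qbar" => AlgebraicClosure ℚ
local notation "GQ" => (AlgebraicClosure ℚ ≃ₐ[ℚ] AlgebraicClosure ℚ)

variable {O : Type} [CommRing O] [IsDomain O] [IsDiscreteValuationRing O]
  [IsAdicComplete (maximalIdeal O) O] [Finite (ResidueField O)]

/-- Auxiliary primes with their levels: distinct residual Frobenius eigenvalues, no residual
ramification. -/
structure AuxPrimes (p : ℕ) (ρbar : ResidualGaloisRep (ResidueField O)) {D : ℕ}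
    (qv lv : Fin D → ℕ) : Prop where
  prime : ∀ i, (qv i).Prime
  ne : ∀ i, qv i ≠ p
  pos : ∀ i, 1 ≤ lv i
  dvd : ∀ i, p ^ lv i ∣ qv i - 1
  max : ∀ i, ¬ p ^ (lv i + 1) ∣ qv i - 1
  unramified : ∀ i, ρbar.IsUnramifiedAt (qv i)
  roots : ∀ i, ∀ A : ValuationSubring Qbar, A.LiesOverPrime (qv i) → ∀ φ : GQ,
    A.IsFrobeniusAt φ (qv i) → ∃ α β : ResidueField O, α ≠ β ∧
      LinearMap.charpoly (ρbar.ρ φ) = (X - C α) * (X - C β)

variable {p : ℕ} [Fact p.Prime]
  {ρbar : ResidualGaloisRep (ResidueField O)} {S : Finset ℕ}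
  {ι : Type} [Fintype ι] {F : ι → Type} [∀ a, CommRing (F a)] [∀ a, IsDomain (F a)]
  [∀ a, IsLocalRing (F a)] [∀ a, IsNoetherianRing (F a)] [∀ a, Algebra O (F a)]
  [∀ a, Module.Finite O (F a)] [∀ a, IsLocalHom (algebraMap O (F a))]
  {c : ∀ a, ℕ → F a} {ρpt : ∀ a, GaloisRepAdic (F a)}
  {c₀ : ℕ → O} {D : ℕ} {lv : Fin D → ℕ}

local notation "augD" =>
  Ideal.Quotient.lift (diamondIdeal (𝒪 := O) p lv) MvPowerSeries.constantCoeff
    (diamondIdeal_aug p lv)

variable {R : JointRing p ρbar S F c ρpt} {M : Type} {d : M → ℕ}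
  {L : ∀ j : M, OpLevel O S c₀ (DiaCoords O p lv) (d j)}

/-- The action of the joint ring on all the members in new coordinates, and the change of
coordinates `τ` on matrices between members. -/
structure DiamondAction (Q : LevelPts R L) (b : Basis (Fin 2) R.T R.ρ.V) (qv : Fin D → ℕ) :
    Type where
  /-- The action of the joint ring on each member, in the new coordinates. -/
  act : ∀ j, R.T →+* Matrix (Fin (d j)) (Fin (d j)) (DiaCoords O p lv)
  /-- Elements of the ring acting as the diamond variables. -/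
  dia : Fin D → R.T
  dia_mem : ∀ i, dia i ∈ maximalIdeal R.T
  act_algebraMap : ∀ j x,
    act j (algebraMap O R.T x) = Matrix.scalar (Fin (d j)) (algebraMap O (DiaCoords O p lv) x)
  act_dia : ∀ j i, act j (dia i) = Matrix.scalar (Fin (d j)) (diaX O p lv i)
  act_eq_zero : ∀ j t, act j t = 0 ↔ ∀ a, Q.pt j a t = 0
  act_aug : ∀ j t z, (∀ a, (L j).ev a z = Q.pt j a t) →
    (act j t).map augD = ((L j).Φ z).map augD
  /-- The change of coordinates on matrices between two members. -/
  tau : ∀ j k, Matrix (Fin (d k)) (Fin (d j)) (DiaCoords O p lv) →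
    Matrix (Fin (d k)) (Fin (d j)) (DiaCoords O p lv)
  tau_op : ∀ j t z, (∀ a, (L j).ev a z = Q.pt j a t) → tau j j ((L j).Φ z) = act j t
  tau_add : ∀ j k U V, tau j k (U + V) = tau j k U + tau j k V
  tau_aug : ∀ j k U, (tau j k U).map augD = U.map augD
  tau_mul : ∀ j k l U V,
    (∀ ℓ : ℕ, ℓ.Prime → ℓ ∉ S → V * (L k).Φ ((L k).x ℓ) = (L l).Φ ((L l).x ℓ) * V) →
      tau j l (V * U) = tau k l V * tau j k U
  tau_comm : ∀ j k U,
    (∀ ℓ : ℕ, ℓ.Prime → ℓ ∉ S → U * (L j).Φ ((L j).x ℓ) = (L k).Φ ((L k).x ℓ) * U) →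
      ∀ t, tau j k U * act j t = act k t * tau j k U
  dia_zero : ∀ (i : Fin D) (E : Type) [CommRing E] [IsDomain E] (lam : R.T →+* E),
    (∀ A : ValuationSubring Qbar, A.LiesOverPrime (qv i) → ∀ σ ∈ A.inertiaSubgroupIn ℚ,
      (matrixRep b R.ρ.ρ σ).charpoly.map lam = (X - 1) ^ 2) →
    lam (dia i) = 0

variable {K : Type} [Field K] [IsAlgClosed K] [CharZero K] [Algebra O K]
  {bbar : Basis (Fin 2) (ResidueField O) ρbar.V}

omit [IsAdicComplete (maximalIdeal O) O] [Finite (ResidueField O)] [Fact p.Prime] [Fintype ι]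
  [∀ a, IsDomain (F a)] [∀ a, IsNoetherianRing (F a)] [∀ a, Module.Finite O (F a)]
  [∀ a, IsLocalHom (algebraMap O (F a))] in
/-- A matrix intertwining two actions at the Frobenius traces intertwines them. -/
theorem JointRing.intertwine (R : JointRing p ρbar S F c ρpt) {B : Type} [CommRing B] [Algebra O B]
    {m n : ℕ} (f : R.T →ₐ[O] Matrix (Fin m) (Fin m) B) (g : R.T →ₐ[O] Matrix (Fin n) (Fin n) B)
    (U : Matrix (Fin n) (Fin m) B)
    (hU : ∀ ℓ : ℕ, ℓ.Prime → ℓ ∉ S → U * f (R.τ ℓ) = g (R.τ ℓ) * U) (t : R.T) :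
    U * f t = g t * U := by
  have ht : t ∈ Algebra.adjoin O (R.τ '' {ℓ | ℓ.Prime ∧ ℓ ∉ S}) := R.gen ▸ Algebra.mem_top
  induction ht using Algebra.adjoin_induction with
  | mem u hu =>
    obtain ⟨ℓ, ⟨hℓ, hℓS⟩, rfl⟩ := hu
    exact hU ℓ hℓ hℓS
  | algebraMap r =>
    rw [AlgHom.commutes, AlgHom.commutes, Algebra.algebraMap_eq_smul_one,
      Algebra.algebraMap_eq_smul_one, Matrix.mul_smul, Matrix.smul_mul, Matrix.mul_one,
      Matrix.one_mul]
  | add u v _ _ hu hv => rw [map_add, map_add, Matrix.mul_add, Matrix.add_mul, hu, hv]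
  | mul u v _ _ hu hv =>
    rw [map_mul, map_mul, ← Matrix.mul_assoc, hu, Matrix.mul_assoc, hv, Matrix.mul_assoc]

omit [∀ a, IsNoetherianRing (F a)] [∀ a, Module.Finite O (F a)]
  [∀ a, IsLocalHom (algebraMap O (F a))] in
/-- **The diamond action exists.** -/
theorem LevelPts.exists_diamondAction (Q : LevelPts R L)
    (hinjK : Function.Injective (algebraMap O K))
    (hpO : (p : O) ∈ maximalIdeal O) {qv : Fin D → ℕ} (hq : AuxPrimes p ρbar qv lv)
    {b : Basis (Fin 2) R.T R.ρ.V} (hb : Adapted bbar R.residue_surjective R.ρ b)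
    (htw : ∀ j (φ : DiaCoords O p lv →ₐ[O] K) (e : (L j).A →+* K),
      (∃ w : Fin (d j) → K, w ≠ 0 ∧ ∀ z, (((L j).Φ z).map φ).mulVec w = e z • w) →
      ∃ a : (L j).κ, (∀ z, e z = 0 ↔ (L j).ev a z = 0) ∧
        (∀ i, φ (diaX O p lv i) = 0 → ((L j).ρ a).IsUnipotentOnInertiaAt (qv i)) ∧
        ∀ i, (∀ i', i' ≠ i → φ (diaX O p lv i') = 0) →
          IsPrimitiveRoot (1 + φ (diaX O p lv i)) p →
            ¬ ((L j).ρ a).IsUnipotentOnInertiaAt (qv i)) :
    Nonempty (DiamondAction Q b qv) := by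
  classical
  have hp : p.Prime := Fact.out
  have : Finite (ResidueField R.T) := Finite.of_surjective
    (ResidueField.map (algebraMap O R.T)) fun y => by
      obtain ⟨o, rfl⟩ := R.residue_surjective y
      exact ⟨residue O o, rfl⟩
  choose act₀ hτ hker hwd hlift using fun j => Q.exists_action j
  let Mr : GQ →* Matrix (Fin 2) (Fin 2) R.T := matrixRep b R.ρ.ρ
  have hMres : ∀ σ, (Mr σ).map (residue R.T) =
      (rbar bbar σ).map (ResidueField.map (algebraMap O R.T)) := fun σ => by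
    ext i j
    rw [Matrix.map_apply, Matrix.map_apply, ← toRes_entry hb σ i j]
    exact (map_resEquiv_toRes R.residue_surjective _).symm
  choose A hA using fun i => Gal.exists_liesOverPrime (hq.prime i)
  choose Φq hΦq using fun i => Gal.exists_isFrobeniusAt (A := A i) (hq.prime i) (hA i)
  choose α β hαβ hroots using fun i => hq.roots i (A i) (hA i) (Φq i) (hΦq i)
  have hpt : ∀ (φ : DiaCoords O p lv →ₐ[O] K) j (lam : R.T →+* K),
      (∃ w : Fin (d j) → K, w ≠ 0 ∧ ∀ t, ((act₀ j t).map φ).mulVec w = lam t • w) →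
      ∃ a, (∀ t, lam t = 0 ↔ Q.pt j a t = 0) ∧
        (∀ i, φ (diaX O p lv i) = 0 → ((L j).ρ a).IsUnipotentOnInertiaAt (qv i)) ∧
        ∀ i, (∀ i', i' ≠ i → φ (diaX O p lv i') = 0) →
          IsPrimitiveRoot (1 + φ (diaX O p lv i)) p →
            ¬ ((L j).ρ a).IsUnipotentOnInertiaAt (qv i) := by
    intro φ j lam hw
    obtain ⟨e, he, hkere⟩ := Q.exists_point_of_eigen j (hlift j) φ lam hw
    obtain ⟨a, ha, h1, h2⟩ := htw j φ e he
    exact ⟨a, hkere a ha, h1, h2⟩
  obtain ⟨δ, act', τ, hδ, h1, h2, h3, h4, h5, h6, -, h8, h9, h10, h11⟩ :=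
    exists_twDiamond_family (p := p) (lv := lv) hinjK hpO (T := R.T) d
    (fun j => (act₀ j).toRingHom)
    (fun j x => by
      show act₀ j (algebraMap O R.T x) = _
      rw [AlgHom.commutes]
      ext a a'
      rcases eq_or_ne a a' with rfl | h <;> simp [Matrix.algebraMap_matrix_apply, *])
    qv hq.prime (fun i => (hq.ne i).symm) hq.pos hq.dvd hq.max
    (fun i => finite_roots_of_points (fun a => (R.pt a).toRingHom) R.pt_injective
      (pow_pos hp.pos _))
    Mr (fun n => exists_nearOne R.ρ b n) A hA Φq hΦq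
    (fun i σ hσ => by
      rw [hMres, show rbar bbar σ = 1 from by
        show LinearMap.toMatrixAlgEquiv bbar (ρbar.ρ σ) = 1
        rw [hq.unramified i (A i) (hA i) σ hσ, map_one]]
      exact Matrix.map_one _ (map_zero _) (map_one _))
    (fun i σ hσ => (LinearMap.det_toMatrix b _).trans
      (LevelLowering.det_inertia_of_detIsCyclotomic R.det hp (hq.prime i) (hq.ne i)
        (hA i) hσ))
    (fun i => ResidueField.map (algebraMap O R.T) (α i))
    (fun i => ResidueField.map (algebraMap O R.T) (β i))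
    (fun i h => hαβ i ((ResidueField.map (algebraMap O R.T)).injective h))
    (fun i => by
      rw [hMres, Matrix.charpoly_map,
        show (rbar bbar (Φq i)).charpoly = LinearMap.charpoly (ρbar.ρ (Φq i)) from
          LinearMap.charpoly_toMatrix _ bbar, hroots i]
      simp)
    (fun j i φ hφ lam hw σ hσ => by
      obtain ⟨a, hk, hu, -⟩ := hpt φ j lam hw
      rw [LevelLowering.map_eq_sq_iff_of_ker _ lam (Q.pt j a).toRingHom hk,
        ← Q.charpoly_eq b]
      exact hu i hφ (A i) (hA i) σ hσ)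
    (fun j i φ hφ hprim lam hw => by
      obtain ⟨a, hk, -, hn⟩ := hpt φ j lam hw
      by_contra hcon
      push Not at hcon
      refine hn i hφ hprim fun P' hP' σ hσ => ?_
      obtain ⟨g, hg⟩ := Gal.exists_smul_eq (hq.prime i) hP' (hA i)
      have hconj : g * σ * g⁻¹ ∈ (A i).inertiaSubgroupIn ℚ := hg ▸ Gal.conj_mem_inertia hσ g
      have h := hcon _ hconj
      rw [LevelLowering.map_eq_sq_iff_of_ker _ lam (Q.pt j a).toRingHom hk,
        ← Q.charpoly_eq b] at h
      rw [← h, map_mul, map_mul]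
      let eg : ((L j).ρ a).V ≃ₗ[(L j).F a] ((L j).ρ a).V :=
        LinearEquiv.ofLinearMap (((L j).ρ a).ρ g) (((L j).ρ a).ρ g⁻¹)
          (by rw [← Module.End.mul_eq_comp, ← map_mul, mul_inv_cancel, map_one]; rfl)
          (by rw [← Module.End.mul_eq_comp, ← map_mul, inv_mul_cancel, map_one]; rfl)
      rw [← eg.charpoly_conj (((L j).ρ a).ρ σ)]
      rfl)
  have hcomm : ∀ j k (U : Matrix (Fin (d k)) (Fin (d j)) (DiaCoords O p lv)),
      (∀ ℓ : ℕ, ℓ.Prime → ℓ ∉ S → U * (L j).Φ ((L j).x ℓ) = (L k).Φ ((L k).x ℓ) * U) →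
      ∀ t, U * (act₀ j).toRingHom t = (act₀ k).toRingHom t * U :=
    fun j k U hU => JointRing.intertwine R (act₀ j) (act₀ k) U fun ℓ hℓ hℓS => by
      rw [hτ j ℓ hℓ hℓS, hτ k ℓ hℓ hℓS, hU ℓ hℓ hℓS]
  exact ⟨{
    act := act'
    dia := δ
    dia_mem := hδ
    act_algebraMap := h1
    act_dia := h2
    act_eq_zero := fun j t => (h3 j t).trans ⟨fun h a => by
      obtain ⟨z, hz, hze⟩ := hlift j t
      rw [← hze a]
      exact ((L j).ker_iff z).mp (hz.trans h) a, hker j t⟩
    act_aug := fun j t z hz => (h4 j t).trans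
      (congrArg (fun U => Matrix.map U augD) (hwd j t z hz))
    tau := τ
    tau_op := fun j t z hz => (congrArg (τ j j) (hwd j t z hz).symm).trans (h5 j t)
    tau_add := h6
    tau_aug := h8
    tau_mul := fun j k l U V hV => h9 j k l U V (hcomm k l V hV)
    tau_comm := fun j k U hU => h10 j k U (hcomm j k U hU)
    dia_zero := fun i E _ _ lam h => h11 i E lam (h (A i) (hA i)) }⟩

end Fermat.Agent.Raising
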