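import Fermat.Agent.Raising.Build.Reach

/-!
# Where the eigensystems of a raising step lie

The eigensystems of the bottom level reach the unramified components at all raised primes; those of
level `j + 1` new at the `j`-th prime reach a choice allowed for the new part.
-/

noncomputable section

namespace Fermat.Agent.Raising

open IsLocalRing Matrix Module Fermat.Agent.LevelLowering Fermat.Agent.Gal Fermat.Agent.TW

variable {O : Type} [CommRing O] [IsDomain O] [IsDiscreteValuationRing O]
  [IsAdicComplete (maximalIdeal O) O] [Finite (ResidueField O)] {p : ℕ} [Fact p.Prime]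
  {ρbar : ResidualGaloisRep (ResidueField O)} {bbar : Basis (Fin 2) (ResidueField O) ρbar.V}
  {m D : ℕ} {P : Fin m → RaisedPrime p ρbar bbar} {Smin : Finset ℕ} {c₀ : ℕ → O} {d : ℕ → ℕ}
  {Tm : ∀ j, ℕ → Matrix (Fin (d j)) (Fin (d j)) O} {S₀ : Finset ℕ} {qv lv : Fin D → ℕ}
  {K : Type} [Field K] [Algebra O K] (X : RaiseInputs K P Smin c₀ d Tm S₀ qv lv)

/-- The eigensystems of level `j + 1` new at the `j`-th prime, by the trace. -/
def RaiseInputs.IsNewAt (j : Fin m) (a : (X.L (j + 1)).κ) : Prop :=
  LinearMap.trace _ _ (((X.L (j + 1)).ρ a).ρ (P j).φ) =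
      algebraMap O ((X.L (j + 1)).F a) ((P j).ε) * (((P j).q : (X.L (j + 1)).F a) + 1) ∨
    LinearMap.trace _ _ (((X.L (j + 1)).ρ a).ρ (P j).φ) =
      -(algebraMap O ((X.L (j + 1)).F a) ((P j).ε) * (((P j).q : (X.L (j + 1)).F a) + 1))

omit [Fact (Nat.Prime p)] [IsAdicComplete (maximalIdeal O) O] [Finite (ResidueField O)] in
/-- The eigensystems of level `j` are unramified at the later raised primes. -/
theorem RaiseInputs.unramified_later (hinj : Function.Injective fun i => (P i).q)
    (hSmin : ∀ i, (P i).q ∉ Smin) (hqv : ∀ i l, (P i).q ≠ qv l) (j : ℕ) (a : (X.L j).κ)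
    (i : Fin m) (hi : j ≤ i) : ((X.L j).ρ a).IsUnramifiedAt (P i).q := by
  refine X.unramified j a _ (P i).prime ?_
  simp only [ramSet, Finset.mem_insert, Finset.mem_union, Finset.mem_image, Finset.mem_filter,
    Finset.mem_univ, true_and, not_or, not_exists, not_and]
  exact ⟨(P i).ne_p, ⟨hSmin i, fun i' hi' h => absurd (hinj h ▸ hi') hi.not_gt⟩,
    fun l h => hqv i l h.symm⟩

omit [Fact (Nat.Prime p)] [IsAdicComplete (maximalIdeal O) O] [Finite (ResidueField O)] in
/-- The eigensystems of level `j` are unipotent on inertia at the earlier raised primes. -/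
theorem RaiseInputs.unipotent_earlier (j : ℕ) (a : (X.L j).κ) (i : Fin m) (hi : (i : ℕ) < j) :
    ((X.L j).ρ a).IsUnipotentOnInertiaAt (P i).q :=
  X.unipotent j a _ (Finset.mem_union_right _ (Finset.mem_image.mpr
    ⟨i, Finset.mem_filter.mpr ⟨Finset.mem_univ _, hi⟩, rfl⟩)) (P i).prime (P i).ne_p

variable {T : Type} [CommRing T] [IsLocalRing T] [IsNoetherianRing T]
  [IsAdicComplete (maximalIdeal T) T] [Algebra O T] [IsLocalHom (algebraMap O T)]
  {ρ : GaloisRepAdic T} {b : Basis (Fin 2) T ρ.V}
  {hres : Function.Surjective (residue T ∘ algebraMap O T)} (hb : Adapted bbar hres ρ b)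
  (hdet : ρ.DetIsCyclotomic p) (Kf : ∀ i, LocalKind (P i)) (hpO : (p : O) ∈ maximalIdeal O)
  (hinj : Function.Injective fun i => (P i).q) (hSmin : ∀ i, (P i).q ∉ Smin)
  (hqv : ∀ i l, (P i).q ≠ qv l)

omit [Finite (ResidueField O)] in
include hb hdet hpO hinj hSmin hqv in
/-- **Points of the bottom level** reach the unramified components. -/
theorem RaiseInputs.base_reaches (a : (X.L 0).κ) (f : T →ₐ[O] (X.L 0).F a)
    [hf : IsLocalHom f.toRingHom]
    (heq : (ρ.baseChangeAlong f.toRingHom hf).IsEquiv ((X.L 0).ρ a)) (i : Fin m) :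
    ((Kf i).B.comp (curChoice (fun i => (Kf i).B) 0 i)).Reaches
      fun x => f (RaisedPrime.coordOf b (Kf i) x) :=
  reaches_curChoice_zero hb hdet f heq P Kf
    (by rw [← map_natCast (algebraMap O _)]; exact map_nonunit _ _ hpO)
    (fun i => X.unramified_later hinj hSmin hqv 0 a i (Nat.zero_le _)) i

omit [Finite (ResidueField O)] in
include hb hdet hpO hinj hSmin hqv in
/-- **New points of level `j + 1`** reach a choice allowed for the new part. -/
theorem RaiseInputs.new_reaches (j : Fin m) (a : (X.L (j + 1)).κ)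
    (f : T →ₐ[O] (X.L (j + 1)).F a) [hf : IsLocalHom f.toRingHom]
    (heq : (ρ.baseChangeAlong f.toRingHom hf).IsEquiv ((X.L (j + 1)).ρ a)) (hnew : X.IsNewAt j a) :
    ∃ k : ∀ i, Fin (Kf i).B.K, IsNewChoice (fun i => (Kf i).B) j k ∧
      ∀ i, ((Kf i).B.comp (k i)).Reaches fun x => f (RaisedPrime.coordOf b (Kf i) x) :=
  exists_newChoice_reaches hb hdet f heq P Kf
    (by rw [← map_natCast (algebraMap O _)]; exact map_nonunit _ _ hpO) j
    (fun i hi => X.unipotent_earlier _ a i (Nat.lt_succ_of_le hi))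
    (fun i hi => X.unramified_later hinj hSmin hqv _ a i hi) hnew

end Fermat.Agent.Raising
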