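import Fermat.Agent.Raising.PointSet

/-!
# Levels acting through a joint ring

`LevelPts` says that the eigensystems of a family of levels are points of a joint ring.  Then the
ring acts on each level compatibly with the traces of Frobenius (`LevelPts.exists_action`), and an
eigencharacter of that action is, coefficientwise, one of the points
(`LevelPts.exists_point_of_eigen`).
-/

noncomputable section

namespace Fermat.Agent.Raising

open IsLocalRing Polynomial Module Matrix Fermat.Agent.LevelLowering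
  Fermat.Agent.LevelLowering.Scalar Fermat.Agent.Gal

local notation "Qbar" => AlgebraicClosure ℚ
local notation "GQ" => (AlgebraicClosure ℚ ≃ₐ[ℚ] AlgebraicClosure ℚ)

variable {O : Type} [CommRing O] [IsDomain O] [IsDiscreteValuationRing O]
  [IsAdicComplete (maximalIdeal O) O] [Finite (ResidueField O)] {p : ℕ}
  {ρbar : ResidualGaloisRep (ResidueField O)} {S : Finset ℕ}
  {ι : Type} {F : ι → Type} [∀ a, CommRing (F a)] [∀ a, IsLocalRing (F a)]
  [∀ a, Algebra O (F a)]
  {c : ∀ a, ℕ → F a} {ρpt : ∀ a, GaloisRepAdic (F a)}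
  {c₀ : ℕ → O} {B : Type} [CommRing B] [Algebra O B]

/-- The eigensystems of a family of levels as points of the joint ring. -/
structure LevelPts (R : JointRing p ρbar S F c ρpt) {M : Type} {d : M → ℕ}
    (L : ∀ j : M, OpLevel O S c₀ B (d j)) : Type where
  /-- The map from the joint ring to each eigensystem. -/
  pt : ∀ j, ∀ a : (L j).κ, R.T →ₐ[O] (L j).F a
  pt_local : ∀ j a, IsLocalHom (pt j a).toRingHom
  pt_τ : ∀ j a, ∀ ℓ : ℕ, ℓ.Prime → ℓ ∉ S →
    pt j a (R.τ ℓ) = (L j).ev a ((L j).x ℓ)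
  pt_equiv : ∀ j a,
    (R.ρ.baseChangeAlong (pt j a).toRingHom (pt_local j a)).IsEquiv ((L j).ρ a)

namespace LevelPts

variable {R : JointRing p ρbar S F c ρpt} {M : Type} {d : M → ℕ}
  {L : ∀ j : M, OpLevel O S c₀ B (d j)} (Q : LevelPts R L)

omit [IsAdicComplete (maximalIdeal O) O] [Finite (ResidueField O)] in
/-- Characteristic polynomials at the points. -/
theorem charpoly_eq (b : Basis (Fin 2) R.T R.ρ.V) (j : M) (a : (L j).κ) (g : GQ) :
    LinearMap.charpoly (((L j).ρ a).ρ g) =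
      (matrixRep b R.ρ.ρ g).charpoly.map (Q.pt j a).toRingHom := by
  rw [charpoly_point (b := b) (Q.pt j a) (hf := Q.pt_local j a) (Q.pt_equiv j a) g,
    ← Matrix.charpoly_map]
  rfl

omit [IsAdicComplete (maximalIdeal O) O] [Finite (ResidueField O)] in
/-- Traces at the points. -/
theorem trace_eq (b : Basis (Fin 2) R.T R.ρ.V) (j : M) (a : (L j).κ) (g : GQ) :
    LinearMap.trace _ ((L j).ρ a).V (((L j).ρ a).ρ g) =
      Q.pt j a (LinearMap.trace R.T R.ρ.V (R.ρ.ρ g)) :=
  trace_point (b := b) (Q.pt j a) (hf := Q.pt_local j a) (Q.pt_equiv j a) g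

omit [IsAdicComplete (maximalIdeal O) O] [Finite (ResidueField O)] in
/-- **The action on a level.** -/
theorem exists_action (j : M) :
    ∃ act : R.T →ₐ[O] Matrix (Fin (d j)) (Fin (d j)) B,
      (∀ ℓ : ℕ, ℓ.Prime → ℓ ∉ S → act (R.τ ℓ) = (L j).Φ ((L j).x ℓ)) ∧
      (∀ t, (∀ a, Q.pt j a t = 0) → act t = 0) ∧
      (∀ t z, (∀ a, (L j).ev a z = Q.pt j a t) → act t = (L j).Φ z) ∧
      ∀ t, ∃ z, (L j).Φ z = act t ∧ ∀ a, (L j).ev a z = Q.pt j a t :=
  R.exists_act_of_points (L j).Φ (L j).x (Q.pt j) (L j).ev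
    (fun a ℓ h h' => (Q.pt_τ j a ℓ h h').symm) fun z hz => ((L j).ker_iff z).mpr hz

variable {K : Type} [Field K] [IsAlgClosed K] [Algebra O K]

omit [IsAdicComplete (maximalIdeal O) O] [Finite (ResidueField O)] in
/-- An eigencharacter of the action is, coefficientwise, an eigencharacter of the operators, with
the kernel of a point. -/
theorem exists_point_of_eigen (j : M)
    {act : R.T →ₐ[O] Matrix (Fin (d j)) (Fin (d j)) B}
    (hlift : ∀ t, ∃ z, (L j).Φ z = act t ∧ ∀ a, (L j).ev a z = Q.pt j a t) (φ : B →ₐ[O] K)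
    (lam : R.T →+* K)
    (hw : ∃ w : Fin (d j) → K, w ≠ 0 ∧ ∀ t, ((act t).map φ).mulVec w = lam t • w) :
    ∃ e : (L j).A →+* K,
      (∃ w : Fin (d j) → K, w ≠ 0 ∧ ∀ z, (((L j).Φ z).map φ).mulVec w = e z • w) ∧
      ∀ a, (∀ z, e z = 0 ↔ (L j).ev a z = 0) → ∀ t, lam t = 0 ↔ Q.pt j a t = 0 := by
  classical
  obtain ⟨w, hw0, hwt⟩ := hw
  choose z hz hzev using hlift
  obtain ⟨e, hv, he⟩ := exists_eigenChar_extend ((φ : B →+* K).mapMatrix.comp (L j).Φ.toRingHom) z
    lam hw0 fun t => (congrArg (fun M => (M.map φ).mulVec w) (hz t)).trans (hwt t)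
  exact ⟨e, hv, fun a ha t => by rw [← he t, ha (z t), hzev t a]⟩

end LevelPts

end Fermat.Agent.Raising
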