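import Fermat.Agent.Raising.Build.LevelPts
import Fermat.Agent.Raising.Levels

/-!
# Coordinates at the raised primes

The coordinates of a raised prime on a joint ring are those of the matrices of Frobenius and
monodromy in an adapted basis.  A point unramified at all raised primes reaches the unramified
components; a point unipotent at the first primes, unramified at the later ones and new at the
`j`-th by the trace reaches a choice allowed for the new part.
-/

noncomputable section

namespace Fermat.Agent.Raising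

open IsLocalRing Matrix Module Fermat.Agent.LevelLowering Fermat.Agent.Gal Fermat.Agent.TW

local notation "GQ" => (AlgebraicClosure ℚ ≃ₐ[ℚ] AlgebraicClosure ℚ)

variable {O : Type} [CommRing O] [IsDomain O] [IsDiscreteValuationRing O]
  [IsAdicComplete (maximalIdeal O) O] [Finite (ResidueField O)] {p : ℕ} [Fact p.Prime]
  {ρbar : ResidualGaloisRep (ResidueField O)} {bbar : Basis (Fin 2) (ResidueField O) ρbar.V}
  {T : Type} [CommRing T] [IsLocalRing T] [IsNoetherianRing T]
  [IsAdicComplete (maximalIdeal T) T] [Algebra O T] [IsLocalHom (algebraMap O T)]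
  {ρ : GaloisRepAdic T} (b : Basis (Fin 2) T ρ.V)

/-- The coordinates at a raised prime. -/
def RaisedPrime.coordOf {P : RaisedPrime p ρbar bbar} (Kd : LocalKind P) : Fin Kd.e → T :=
  Kd.coord T (matrixRep b ρ.ρ P.φ) (matrixRep b ρ.ρ P.σ - 1)

variable {b} {hres : Function.Surjective (residue T ∘ algebraMap O T)}
  (hb : Adapted bbar hres ρ b) (hdet : ρ.DetIsCyclotomic p)
  {P : RaisedPrime p ρbar bbar} (Kd : LocalKind P)

omit [Finite (ResidueField O)] in
include hb hdet in
theorem RaisedPrime.coordOf_mem (x : Fin Kd.e) :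
    RaisedPrime.coordOf b Kd x ∈ maximalIdeal T :=
  Kd.coord_mem T (isLift_of_adapted hb hdet P) x

omit [Finite (ResidueField O)] in
include hb hdet in
/-- The matrix of the two degeneracy maps in the coordinates. -/
theorem RaisedPrime.evalSeries_G (x y : Fin 2) :
    evalSeries (RaisedPrime.coordOf b Kd) (RaisedPrime.coordOf_mem hb hdet Kd) (Kd.G x y) =
      !![(P.q : T) + 1, LinearMap.trace T ρ.V (ρ.ρ P.φ);
        LinearMap.trace T ρ.V (ρ.ρ P.φ), (P.q : T) + 1] x y := by
  rw [← trace_matrixRep b ρ.ρ P.φ]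
  exact Kd.G_val T (isLift_of_adapted hb hdet P) x y

variable {E : Type} [CommRing E] [Algebra O E]

omit [Finite (ResidueField O)] in
include hb hdet in
/-- The coordinates at a point. -/
theorem RaisedPrime.map_coordOf [IsLocalRing E] [IsAdicComplete (maximalIdeal E) E]
    (f : T →ₐ[O] E) [hf : IsLocalHom f.toRingHom] (x : Fin Kd.e) :
    f (RaisedPrime.coordOf b Kd x) =
      Kd.coord E ((matrixRep b ρ.ρ P.φ).map f) ((matrixRep b ρ.ρ P.σ - 1).map f) x :=
  Kd.coord_map T E f (fun _ hy => map_nonunit f.toRingHom _ hy) (isLift_of_adapted hb hdet P) x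

variable [IsDomain E] [ValuationRing E] [CharZero E] [IsNoetherianRing E]
  [IsAdicComplete (maximalIdeal E) E]
  (f : T →ₐ[O] E) [hf : IsLocalHom f.toRingHom] {ρE : GaloisRepAdic E}
  (heq : (ρ.baseChangeAlong f.toRingHom hf).IsEquiv ρE)

omit [Finite (ResidueField O)] in
include hb hdet heq in
/-- A point unramified at the prime reaches the unramified component. -/
theorem RaisedPrime.reaches_ur (hpE : (p : E) ∈ maximalIdeal E) (hunr : ρE.IsUnramifiedAt P.q) :
    (Kd.B.comp Kd.B.ur).Reaches fun x => f (RaisedPrime.coordOf b Kd x) := by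
  rw [funext (RaisedPrime.map_coordOf hb hdet Kd f)]
  obtain ⟨hL, -, hN⟩ := lift_at_point hb hdet P f heq hpE
  have hN0 := hN hunr
  refine (Kd.reach E hL ?_ ?_).2.1 hN0
  · rw [hN0, Matrix.mul_zero]
  · rw [hN0, Matrix.mul_zero, Matrix.zero_mul, smul_zero]

omit [Finite (ResidueField O)] in
include hb hdet heq in
/-- A unipotent point reaches some component; by the trace the one of the curve or another one
off the unramified one. -/
theorem RaisedPrime.exists_reaches (hpE : (p : E) ∈ maximalIdeal E)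
    (huni : ρE.IsUnipotentOnInertiaAt P.q) :
    (∃ k, (Kd.B.comp k).Reaches fun x => f (RaisedPrime.coordOf b Kd x)) ∧
    ((LinearMap.trace E ρE.V (ρE.ρ P.φ) = algebraMap O E P.ε * ((P.q : E) + 1) ∨
        LinearMap.trace E ρE.V (ρE.ρ P.φ) = -(algebraMap O E P.ε * ((P.q : E) + 1))) →
      ∃ k, k ≠ Kd.B.ur ∧ (Kd.B.comp k).Reaches fun x => f (RaisedPrime.coordOf b Kd x)) := by
  rw [funext (RaisedPrime.map_coordOf hb hdet Kd f)]
  obtain ⟨hL, hN, -⟩ := lift_at_point hb hdet P f heq hpE
  obtain ⟨h0, h1⟩ := hN huni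
  obtain ⟨hk, -, hst, hneg⟩ := Kd.reach E hL h0 h1
  have htr : ((matrixRep b ρ.ρ P.φ).map f).trace = LinearMap.trace E ρE.V (ρE.ρ P.φ) := by
    rw [trace_point (b := b) f heq P.φ, ← trace_matrixRep b]
    exact (AddMonoidHom.map_trace f.toRingHom.toAddMonoidHom _).symm
  exact ⟨hk, fun h => h.elim (fun h => ⟨Kd.B.st, Kd.B.st_ne_ur, hst (htr.trans h)⟩)
    fun h => hneg (htr.trans h)⟩

section Choice

variable {m : ℕ} (Pf : Fin m → RaisedPrime p ρbar bbar) (Kf : ∀ i, LocalKind (Pf i))

omit [Finite (ResidueField O)] in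
include hb hdet heq in
/-- A point unramified at all raised primes. -/
theorem reaches_curChoice_zero (hpE : (p : E) ∈ maximalIdeal E)
    (hunr : ∀ i, ρE.IsUnramifiedAt (Pf i).q) (i : Fin m) :
    ((Kf i).B.comp (curChoice (fun i => (Kf i).B) 0 i)).Reaches
      fun x => f (RaisedPrime.coordOf b (Kf i) x) := by
  rw [show curChoice (fun i => (Kf i).B) 0 i = (Kf i).B.ur from if_neg (Nat.not_lt_zero _)]
  exact RaisedPrime.reaches_ur hb hdet (Kf i) f heq hpE (hunr i)

omit [Finite (ResidueField O)] in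
include hb hdet heq in
/-- A new point at the `j`-th prime. -/
theorem exists_newChoice_reaches (hpE : (p : E) ∈ maximalIdeal E) (j : Fin m)
    (huni : ∀ i : Fin m, (i : ℕ) ≤ j → ρE.IsUnipotentOnInertiaAt (Pf i).q)
    (hunr : ∀ i : Fin m, (j : ℕ) < i → ρE.IsUnramifiedAt (Pf i).q)
    (hnew : LinearMap.trace E ρE.V (ρE.ρ (Pf j).φ) =
        algebraMap O E (Pf j).ε * (((Pf j).q : E) + 1) ∨
      LinearMap.trace E ρE.V (ρE.ρ (Pf j).φ) =
        -(algebraMap O E (Pf j).ε * (((Pf j).q : E) + 1))) :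
    ∃ k : ∀ i, Fin (Kf i).B.K, IsNewChoice (fun i => (Kf i).B) j k ∧
      ∀ i, ((Kf i).B.comp (k i)).Reaches fun x => f (RaisedPrime.coordOf b (Kf i) x) := by
  have key : ∀ i, ∃ k, (i = j → k ≠ (Kf i).B.ur) ∧ ((j : ℕ) < i → k = (Kf i).B.ur) ∧
      ((Kf i).B.comp k).Reaches fun x => f (RaisedPrime.coordOf b (Kf i) x) := fun i => by
    rcases lt_trichotomy (i : ℕ) j with h | h | h
    · obtain ⟨k, hk⟩ := (RaisedPrime.exists_reaches hb hdet (Kf i) f heq hpE (huni i h.le)).1
      exact ⟨k, fun e => absurd (congrArg Fin.val e) h.ne, fun h' => absurd h' h.asymm, hk⟩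
    · obtain rfl := Fin.ext h
      obtain ⟨k, hk0, hk⟩ :=
        (RaisedPrime.exists_reaches hb hdet (Kf i) f heq hpE (huni i le_rfl)).2 hnew
      exact ⟨k, fun _ => hk0, fun h' => absurd h' (lt_irrefl _), hk⟩
    · exact ⟨_, fun e => absurd (congrArg Fin.val e) h.ne', fun _ => rfl,
        RaisedPrime.reaches_ur hb hdet (Kf i) f heq hpE (hunr i h)⟩
  choose k hk1 hk2 hk3 using key
  exact ⟨k, ⟨hk1 j rfl, hk2⟩, hk3⟩

end Choice

end Fermat.Agent.Raising
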